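import Fermat.Agent.A3.H75.DiscOfCons

/-!
# A3 / LOCAL / DISC (helper75): `DiscAlg` from conservation of zeros

`ConsInput.discRing I Q` : the `A`-algebra of functions of Gauss norm `≤ 1` regular on the residue
disc of `Q`.  `DiscParam.discAlg T : DiscAlg A (discRing I Q)` : it is a disc algebra in the sense
of helper799 (`Fermat/Agent/A3/H799/Disc.lean`), with parameter `t`, and evaluation `ev a` = value
at the unique point `center a` of the disc with `t = a`.

Dictionary lemmas: `DiscParam.ev_eq_of_hasVal` (the abstract evaluation is the value at the point),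
`DiscParam.hasVal_center`, `DiscParam.center_eq`.
-/

set_option autoImplicit false
set_option linter.unusedSectionVars false

noncomputable section

namespace Fermat.Agent.A3.H75

open AlgebraicCurve Fermat.Agent.Lib.RR Fermat.Agent.A3.H799

variable {K : Type*} [Field K] {A : ValuationSubring K} {F : Type*} [Field F] [Algebra K F]
variable {k : Type*} [Field k] {Fk : Type*} [Field Fk] [Algebra k Fk]

theorem coe_mem_nonunits_of_mem_maximalIdeal (a : IsLocalRing.maximalIdeal A) :
    (((a : A) : K)) ∈ A.nonunits := by
  have h1 : (a : A) ∈ nonunits A := (IsLocalRing.mem_maximalIdeal _).mp a.2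
  exact (ValuationSubring.coe_mem_nonunits_iff (A := A)).mpr h1

namespace ConsInput

variable (I : ConsInput A F k Fk) (Q : Place k Fk)

/-- The ring of functions of Gauss norm `≤ 1` which are regular on the residue disc of `Q`. -/
def discRing : Subalgebra A F where
  carrier := {f | f ∈ I.V ∧ I.RegOn Q f}
  mul_mem' := fun ha hb => ⟨I.V.mul_mem _ _ ha.1 hb.1, ha.2.mul hb.2⟩
  add_mem' := fun ha hb => ⟨I.V.add_mem _ _ ha.1 hb.1, ha.2.add hb.2⟩
  algebraMap_mem' := fun a => ⟨I.algebraMap_mem _ a.2, I.regOn_algebraMap Q _⟩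

theorem mem_discRing {f : F} : f ∈ I.discRing Q ↔ f ∈ I.V ∧ I.RegOn Q f := Iff.rfl

/-- a function of the disc ring, as an element of `V` -/
def toV (f : I.discRing Q) : I.V := ⟨(f : F), f.2.1⟩

@[simp] theorem coe_toV (f : I.discRing Q) : ((I.toV Q f : I.V) : F) = (f : F) := rfl

theorem regOn_coe (f : I.discRing Q) : I.RegOn Q (f : F) := f.2.2

end ConsInput

namespace DiscParam

variable {I : ConsInput A F k Fk} {Q : Place k Fk} (T : DiscParam I Q) [FF1 K F]

/-- the parameter, as an element of the disc ring -/
def tElt : I.discRing Q := ⟨(T.t : F), T.t.2, T.t_reg⟩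

@[simp] theorem coe_tElt : ((T.tElt : I.discRing Q) : F) = (T.t : F) := rfl

/-- the point of the disc with parameter value `a` -/
def center (a : IsLocalRing.maximalIdeal A) : Place K F :=
  (T.exists_center (a : A) (coe_mem_nonunits_of_mem_maximalIdeal a)).choose

theorem r_center (a : IsLocalRing.maximalIdeal A) : I.r (T.center a) = Q :=
  (T.exists_center (a : A) (coe_mem_nonunits_of_mem_maximalIdeal a)).choose_spec.1

theorem hasVal_center (a : IsLocalRing.maximalIdeal A) :
    HasVal (T.center a) (T.t : F) (((a : A) : K)) :=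
  (T.exists_center (a : A) (coe_mem_nonunits_of_mem_maximalIdeal a)).choose_spec.2

/-- a point of the disc is the centre attached to its parameter value -/
theorem center_eq (a : IsLocalRing.maximalIdeal A) (P : Place K F) (hP : I.r P = Q)
    (h : HasVal P (T.t : F) (((a : A) : K))) : T.center a = P :=
  T.center_unique (a : A) (coe_mem_nonunits_of_mem_maximalIdeal a) _ _ (T.r_center a) hP
    (T.hasVal_center a) h

/-- every point of the disc is a centre -/
theorem exists_center_eq (P : Place K F) (hP : I.r P = Q) :
    ∃ a : IsLocalRing.maximalIdeal A, T.center a = P := by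
  obtain ⟨b, hb⟩ := I.exists_hasVal_mem Q T.t T.t_reg P hP
  have hbm := T.mem_nonunits_of_hasVal P hP b hb
  have hb' : b ∈ IsLocalRing.maximalIdeal A := by
    rw [IsLocalRing.mem_maximalIdeal]
    exact (ValuationSubring.coe_mem_nonunits_iff (A := A)).mp hbm
  exact ⟨⟨b, hb'⟩, T.center_eq ⟨b, hb'⟩ P hP hb⟩

/-- the value of a disc function at the centre `a` -/
def evVal (a : IsLocalRing.maximalIdeal A) (f : I.discRing Q) : A :=
  (I.exists_hasVal_mem Q (I.toV Q f) (I.regOn_coe Q f) (T.center a) (T.r_center a)).choose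

theorem hasVal_evVal (a : IsLocalRing.maximalIdeal A) (f : I.discRing Q) :
    HasVal (T.center a) (f : F) ((T.evVal a f : A) : K) :=
  (I.exists_hasVal_mem Q (I.toV Q f) (I.regOn_coe Q f) (T.center a) (T.r_center a)).choose_spec

theorem evVal_eq (a : IsLocalRing.maximalIdeal A) (f : I.discRing Q) (b : A)
    (h : HasVal (T.center a) (f : F) (b : K)) : T.evVal a f = b :=
  Subtype.ext ((T.hasVal_evVal a f).unique h)

/-- evaluation at the centre `a`, as an algebra homomorphism -/
def ev (a : IsLocalRing.maximalIdeal A) : I.discRing Q →ₐ[A] A where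
  toFun := T.evVal a
  map_one' := T.evVal_eq a 1 1 (hasVal_one _)
  map_mul' f g := T.evVal_eq a (f * g) _ ((T.hasVal_evVal a f).mul (T.hasVal_evVal a g))
  map_zero' := T.evVal_eq a 0 0 (hasVal_zero _)
  map_add' f g := T.evVal_eq a (f + g) _ ((T.hasVal_evVal a f).add (T.hasVal_evVal a g))
  commutes' c := T.evVal_eq a _ c (hasVal_algebraMap _ _)

@[simp] theorem ev_apply (a : IsLocalRing.maximalIdeal A) (f : I.discRing Q) :
    T.ev a f = T.evVal a f := rfl

/-- **Dictionary.**  The abstract evaluation is the value at the point. -/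
theorem ev_eq_of_hasVal (a : IsLocalRing.maximalIdeal A) (f : I.discRing Q) (P : Place K F)
    (hP : I.r P = Q) (ht : HasVal P (T.t : F) (((a : A) : K))) (b : A)
    (hf : HasVal P (f : F) (b : K)) : T.ev a f = b := by
  have hc := T.center_eq a P hP ht
  apply T.evVal_eq
  rw [hc]
  exact hf

theorem ev_tElt (a : IsLocalRing.maximalIdeal A) : T.ev a T.tElt = (a : A) :=
  T.evVal_eq a T.tElt (a : A) (T.hasVal_center a)

/-- **Taylor.**  If `f` vanishes at the centre `a` then `f / (t - a)` is in the disc ring. -/
theorem div_shift_mem (a : IsLocalRing.maximalIdeal A) (f : I.discRing Q)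
    (hf : HasVal (T.center a) (f : F) 0) :
    (f : F) * (((T.shift (a : A) : I.V) : F))⁻¹ ∈ I.discRing Q := by
  have ha := coe_mem_nonunits_of_mem_maximalIdeal a
  have hu0 := T.shift_ne_zero (a : A) ha
  have hunit : ((T.shift (a : A) : I.V) : F) ∉ I.V.nonunits := by
    intro h
    exact T.ρ_shift_ne_zero (a : A) ha ((I.ρ_eq_zero _).mpr h)
  have hinv := (inv_mem_of_not_mem_nonunits I.V hunit).2
  refine ⟨I.V.mul_mem _ _ f.2.1 hinv, fun P hP => ?_⟩
  by_cases hf0 : (f : F) = 0
  · rw [hf0, zero_mul]
    exact P.toValuationSubring.zero_mem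
  apply mem_of_ord_nonneg
  rw [P.ord_mul hf0 (inv_ne_zero hu0), P.ord_inv]
  by_cases hPc : P = T.center a
  · subst hPc
    have h1 := T.ord_shift_le_one (a : A) ha _ hP
    rcases (hasVal_zero_iff _ _).mp hf with h0 | hpos
    · exact absurd h0 hf0
    · omega
  · have h1 := T.ord_shift_eq_zero (a : A) ha (T.center a) P (T.r_center a) hP
      (T.hasVal_center a) hPc
    have h2 := ord_nonneg_of_mem P (f.2.2 P hP)
    omega

/-- **The disc algebra of a residue disc.** -/
def discAlg : DiscAlg A (I.discRing Q) where
  t := T.tElt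
  ev := T.ev
  ev_t := T.ev_tElt
  taylor := by
    intro a f
    have ha := coe_mem_nonunits_of_mem_maximalIdeal a
    have hu0 := T.shift_ne_zero (a : A) ha
    set g : I.discRing Q := f - algebraMap A (I.discRing Q) (T.ev a f) with hg
    have hgval : HasVal (T.center a) (g : F) 0 := by
      have h1 := (T.hasVal_evVal a f).sub (hasVal_algebraMap (T.center a) ((T.evVal a f : A) : K))
      rw [sub_self] at h1
      exact h1
    refine ⟨⟨_, T.div_shift_mem a g hgval⟩, Subtype.ext ?_⟩
    show (f : F) = algebraMap K F ((T.evVal a f : A) : K) +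
      ((T.t : F) - algebraMap K F ((a : A) : K)) *
        (((f : F) - algebraMap K F ((T.evVal a f : A) : K)) *
          (((T.shift (a : A) : I.V) : F))⁻¹)
    rw [coe_shift]
    have hne : (T.t : F) - algebraMap K F ((a : A) : K) ≠ 0 := by
      rw [← coe_shift]
      exact hu0
    field_simp
    ring
  nzd := by
    intro a f hf
    have ha := coe_mem_nonunits_of_mem_maximalIdeal a
    have hu0 := T.shift_ne_zero (a : A) ha
    have h1 := congrArg (Subtype.val) hf
    have h2 : ((T.t : F) - algebraMap K F ((a : A) : K)) * (f : F) = 0 := h1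
    rw [← coe_shift] at h2
    rcases mul_eq_zero.mp h2 with h | h
    · exact absurd h hu0
    · exact Subtype.ext h

@[simp] theorem discAlg_t : T.discAlg.t = T.tElt := rfl

@[simp] theorem discAlg_ev (a : IsLocalRing.maximalIdeal A) : T.discAlg.ev a = T.ev a := rfl

end DiscParam

end Fermat.Agent.A3.H75
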