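import Fermat.Agent.A3.H75.DiscAlgOfCons
import Fermat.Agent.A3.H799.LocalSpec

/-!
# A3 / LOCAL / DISC (helper75): `DiscData` of a `GoodRed` from a parameter

* `toConsInput` : a `GoodRed` is a `ConsInput` (conservation of zeros = `div_red`);
* `discData_of_param` : for a place `Q` of the special fibre and a parameter `t` (a function of
  `𝓡.O`, regular on the disc of `Q`, with `ord_Q (red t) = 1`) the frozen `DiscData 𝓡 Q` of
  `Fermat/Agent/A3/H799/LocalSpec.lean`, with `D.t = t`.

So the leaf `DiscStatement` is reduced to the existence of an inertia-invariant parameter at every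
place of the special fibre (`disc_of_param`).
-/

set_option autoImplicit false
set_option linter.unusedSectionVars false

noncomputable section

namespace Fermat.Agent.A3.H75

open AlgebraicCurve Fermat.Agent.Lib.RR Fermat.Agent.A3.H799

variable {K F k Fk : Type*} [Field K] [Field F] [Algebra K F] [Field k] [Field Fk] [Algebra k Fk]

theorem red_eq_zero_iff (𝓡 : GoodRed K F k Fk) (x : 𝓡.O) :
    𝓡.red x = 0 ↔ (x : F) ∈ 𝓡.O.nonunits := by
  have hmax : (RingHom.ker 𝓡.red).IsMaximal := RingHom.ker_isMaximal_of_surjective _ 𝓡.red_surjective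
  have heq : RingHom.ker 𝓡.red = IsLocalRing.maximalIdeal 𝓡.O := IsLocalRing.eq_maximalIdeal hmax
  rw [← RingHom.mem_ker, heq, IsLocalRing.mem_maximalIdeal]
  exact (ValuationSubring.coe_mem_nonunits_iff (A := 𝓡.O)).symm

theorem algebraMap_mem_nonunits_of_mem (𝓡 : GoodRed K F k Fk) (a : K) (ha : a ∈ 𝓡.V.nonunits) :
    algebraMap K F a ∈ 𝓡.O.nonunits := by
  rw [ValuationSubring.mem_nonunits_iff_or] at ha ⊢
  rcases ha with rfl | ha
  · left
    exact map_zero _
  · right
    rw [← map_inv₀, 𝓡.algebraMap_mem]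
    exact ha

/-- A `GoodRed` is a `ConsInput`. -/
def toConsInput (𝓡 : GoodRed K F k Fk) :
    ConsInput 𝓡.V F k Fk where
  V := 𝓡.O
  algebraMap_mem a ha := (𝓡.algebraMap_mem a).mpr ha
  algebraMap_mem_nonunits := algebraMap_mem_nonunits_of_mem 𝓡
  π := 𝓡.res
  π_eq_zero a ha := (𝓡.res_eq_zero a).mp ha
  ρ := 𝓡.red
  ρ_eq_zero := red_eq_zero_iff 𝓡
  ρ_algebraMap a ha := 𝓡.red_algebraMap ⟨a, ha⟩ _
  r := 𝓡.r
  cons := 𝓡.div_red

/-- The frozen `DiscData` from a parameter. -/
def discData_of_param (𝓡 : GoodRed K F k Fk) (Q : Place k Fk) (T : DiscParam (toConsInput 𝓡) Q) :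
    DiscData 𝓡 Q :=
  haveI : FF1 K F := 𝓡.ff1
  { ring := (toConsInput 𝓡).discRing Q
    ring_le := fun f hf => hf.1
    ring_reg := fun f hf => hf.2
    mem_ring := fun f hf hreg => ⟨hf, hreg⟩
    D := T.discAlg
    pt := T.center
    r_pt := T.r_center
    pt_surj := T.exists_center_eq
    ord_t := T.ord_t
    ev_spec := by
      intro a f
      have h := T.hasVal_evVal a f
      rcases (mem_nonunits_iff_ord _ _).mp h with h0 | hpos
      · left
        exact sub_eq_zero.mp h0
      · right
        exact hpos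
    red_ev := by
      intro a f
      have h := (toConsInput 𝓡).hasVal_red Q ((toConsInput 𝓡).toV Q f) ((toConsInput 𝓡).regOn_coe Q f)
        (T.center a) (T.r_center a) (T.evVal a f) (T.hasVal_evVal a f)
      rcases (mem_nonunits_iff_ord _ _).mp h with h0 | hpos
      · left
        exact sub_eq_zero.mp h0
      · right
        exact hpos }

theorem discData_of_param_t (𝓡 : GoodRed K F k Fk) (Q : Place k Fk)
    (T : DiscParam (toConsInput 𝓡) Q) :
    (((discData_of_param 𝓡 Q T).D.t : (discData_of_param 𝓡 Q T).ring) : F) = (T.t : F) := rfl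

/-- **DISC from PAR.**  The leaf `DiscStatement` follows from the existence, at every place `Q` of
the special fibre, of an inertia-invariant function of `𝓡.O`, regular on the disc of `Q`, whose
reduction is a uniformiser at `Q`. -/
theorem disc_of_param
    (hpar : ∀ (𝓡 : GoodRed K F k Fk) (Q : Place k Fk), ∃ t : 𝓡.O,
      (∀ P : Place K F, 𝓡.r P = Q → (t : F) ∈ P.toValuationSubring) ∧
      Q.ord (𝓡.red t) = 1 ∧ ∀ g ∈ 𝓡.I, g • (t : F) = (t : F)) :
    DiscStatement K F k Fk := by
  intro 𝓡 Q
  obtain ⟨t, hreg, hord, hinv⟩ := hpar 𝓡 Q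
  exact ⟨discData_of_param 𝓡 Q ⟨t, hreg, hord⟩, hinv⟩

end Fermat.Agent.A3.H75
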