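import Fermat.Agent.A3.H75.DiscValue
import Fermat.Agent.A3.H799.LocalSpec

/-!
# A3 / LOCAL leaf DISC-I (helper75): inertia permutes the points of a disc through the parameter

`discEquivStatement : DiscEquivStatement K F k Fk` (frozen leaf of
`Fermat/Agent/A3/H799/LocalSpec.lean`): for ANY `DiscData d` at `Q` with an inertia-invariant
parameter, `g • d.pt a = d.pt (g a)` for `g` in the inertia group.

Also `discData_hasVal_pt` (the parameter has value `a` at `pt a`), `discData_hasVal_ev`,
`discData_pt_injective`, `discData_pt_eq_of_hasVal`.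
-/

set_option autoImplicit false
set_option linter.unusedSectionVars false

noncomputable section

namespace Fermat.Agent.A3.H75

open AlgebraicCurve Fermat.Agent.Lib.RR Fermat.Agent.A3.H799

variable {K F k Fk : Type*} [Field K] [Field F] [Algebra K F] [Field k] [Field Fk] [Algebra k Fk]

section

variable {𝓡 : GoodRed K F k Fk} {Q : Place k Fk} (d : DiscData 𝓡 Q)

/-- `ev a f` is the value of `f` at `pt a` -/
theorem discData_hasVal_ev (a : IsLocalRing.maximalIdeal 𝓡.V) (f : d.ring) :
    HasVal (d.pt a) (f : F) ((d.D.ev a f : 𝓡.V) : K) := by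
  rw [HasVal, mem_nonunits_iff_ord]
  rcases d.ev_spec a f with h | h
  · left
    exact sub_eq_zero.mpr h
  · right
    omega

/-- the parameter has value `a` at `pt a` -/
theorem discData_hasVal_pt (a : IsLocalRing.maximalIdeal 𝓡.V) :
    HasVal (d.pt a) ((d.D.t : d.ring) : F) (((a : 𝓡.V) : K)) := by
  have h := discData_hasVal_ev d a d.D.t
  rwa [d.D.ev_t] at h

/-- a point of the disc is determined by the value of the parameter -/
theorem discData_pt_eq_of_hasVal (a : IsLocalRing.maximalIdeal 𝓡.V) (P : Place K F)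
    (hP : 𝓡.r P = Q) (h : HasVal P ((d.D.t : d.ring) : F) (((a : 𝓡.V) : K))) : d.pt a = P := by
  obtain ⟨a', rfl⟩ := d.pt_surj P hP
  have h' := discData_hasVal_pt d a'
  have heq : ((a' : 𝓡.V) : K) = ((a : 𝓡.V) : K) := h'.unique h
  have : a' = a := Subtype.ext (Subtype.ext heq)
  rw [this]

theorem discData_pt_injective : Function.Injective d.pt := by
  intro a a' h
  have h1 := discData_hasVal_pt d a
  have h2 := discData_hasVal_pt d a'
  rw [h] at h1
  exact Subtype.ext (Subtype.ext (h1.unique h2))

end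

/-- values are transported by semilinear automorphisms -/
theorem HasVal.smul {P : Place K F} {f : F} {b : K} (h : HasVal P f b)
    (g : SemilinearAut K F) : HasVal (g • P) (g • f) (SemilinearAut.baseAut g b) := by
  rw [HasVal, mem_nonunits_iff_ord] at h ⊢
  have e : g • f - algebraMap K F (SemilinearAut.baseAut g b) = g • (f - algebraMap K F b) := by
    rw [smul_sub, SemilinearAut.smul_algebraMap]
  rw [e, SemilinearAut.ord_smul]
  rcases h with h | h
  · left
    rw [h, smul_zero]
  · exact Or.inr h

variable (K F k Fk)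

/-- **The frozen leaf DISC-I.** -/
theorem discEquivStatement : DiscEquivStatement K F k Fk := by
  intro 𝓡 Q d hinv g hg a
  have hP : 𝓡.r (g • d.pt a) = Q := by
    rw [𝓡.I_place g hg]
    exact d.r_pt a
  have hval : HasVal (g • d.pt a) ((d.D.t : d.ring) : F)
      (SemilinearAut.baseAut g ((a : 𝓡.V) : K)) := by
    have := (discData_hasVal_pt d a).smul g
    rwa [hinv g hg] at this
  obtain ⟨a', ha'⟩ := d.pt_surj (g • d.pt a) hP
  have hval' := discData_hasVal_pt d a'
  rw [ha'] at hval'
  have heq : ((a' : 𝓡.V) : K) = SemilinearAut.baseAut g ((a : 𝓡.V) : K) := hval'.unique hval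
  have h : SemilinearAut.baseAut g ((a : 𝓡.V) : K) ∈ 𝓡.V := by
    rw [← heq]
    exact (a' : 𝓡.V).2
  have h' : (⟨SemilinearAut.baseAut g ((a : 𝓡.V) : K), h⟩ : 𝓡.V) ∈
      IsLocalRing.maximalIdeal 𝓡.V := by
    have e : (⟨SemilinearAut.baseAut g ((a : 𝓡.V) : K), h⟩ : 𝓡.V) = (a' : 𝓡.V) :=
      Subtype.ext heq.symm
    rw [e]
    exact a'.2
  refine ⟨h, h', ?_⟩
  rw [← ha']
  congr 1
  exact Subtype.ext (Subtype.ext heq)

end Fermat.Agent.A3.H75
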