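import Fermat.Agent.A3.H75.DiscValue
import Fermat.Agent.A3.H799.Disc

/-!
# A3 / LOCAL / DISC (helper75): the disc algebra of a residue disc, from conservation of zeros

Dictionary (i) of `coord/A3-LOCAL-helper799.md` §3'.

Input (`ConsInput A F k Fk`): `A` a valuation subring of `K`, `F/K` a function field (`FF1`),
`V` a valuation subring of `F` with `A ⊆ V`, `𝔪_A ⊆ 𝔪_V` (the Gauss valuation), a reduction map
`ρ : V → F_k` with kernel `𝔪_V`, compatible with a residue map `π : A → k`, a map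
`r : Place K F → Place k F_k` and **conservation of zeros** (CONS, in the Prelude form of
`IsPlaceReductionAlong`): `r_* (div u) = div (ρ u)` for `u ∈ V`, `ρ u ≠ 0`.

For a place `Q` of `F_k` and a parameter `t ∈ V`, regular on the residue disc `r⁻¹ Q`, with
`ord_Q (ρ t) = 1` (`DiscParam`):

* `exists_unique_center` : for `a ∈ 𝔪_A` there is exactly one place `P` in the disc with
  `t(P) = a`, and `ord_P (t - a) = 1`;
* `exists_hasVal_mem` : a function of `V` regular on the disc has values in `A` on the disc;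
* `hasVal_red` : value compatibility, `(ρ f)(Q) = π (f(P))`;
* `hasVal_t_mem_nonunits` : `t(P) ∈ 𝔪_A` for `P` in the disc  (so `disc ≃ 𝔪_A` via `t`);
* `discAlg` : the ring `discRing` of functions of `V` regular on the disc is a `DiscAlg`
  (helper799), with `ev a f = f(P_a)`  (`ev_eq_of_hasVal`).
-/

set_option autoImplicit false
set_option linter.unusedSectionVars false

noncomputable section

namespace Fermat.Agent.A3.H75

open AlgebraicCurve Fermat.Agent.Lib.RR Fermat.Agent.A3.H799

variable {K : Type*} [Field K] (A : ValuationSubring K) (F : Type*) [Field F] [Algebra K F]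
variable (k : Type*) [Field k] (Fk : Type*) [Field Fk] [Algebra k Fk]

/-- Minimal reduction input for the calculus on residue discs. -/
structure ConsInput where
  /-- the Gauss valuation ring -/
  V : ValuationSubring F
  algebraMap_mem : ∀ a : K, a ∈ A → algebraMap K F a ∈ V
  algebraMap_mem_nonunits : ∀ a : K, a ∈ A.nonunits → algebraMap K F a ∈ V.nonunits
  /-- the residue map of `A` -/
  π : A →+* k
  π_eq_zero : ∀ a : A, π a = 0 → (a : K) ∈ A.nonunits
  /-- reduction of functions -/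
  ρ : V →+* Fk
  ρ_eq_zero : ∀ x : V, ρ x = 0 ↔ (x : F) ∈ V.nonunits
  ρ_algebraMap : ∀ (a : K) (ha : a ∈ A),
    ρ ⟨algebraMap K F a, algebraMap_mem a ha⟩ = algebraMap k Fk (π ⟨a, ha⟩)
  /-- reduction of places -/
  r : Place K F → Place k Fk
  /-- conservation of zeros -/
  cons : ∀ u : V, ρ u ≠ 0 → ∀ D : Divisor K F, (∀ P, D P = P.ord (u : F)) →
    ∀ Q, Finsupp.mapDomain r D Q = Q.ord (ρ u)

variable {A F k Fk}

namespace ConsInput

variable (I : ConsInput A F k Fk) (Q : Place k Fk)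

/-- `f` is regular on the residue disc of `Q`. -/
def RegOn (f : F) : Prop := ∀ P, I.r P = Q → f ∈ P.toValuationSubring

theorem regOn_algebraMap (c : K) : I.RegOn Q (algebraMap K F c) := fun P _ => P.algebraMap_mem' c

section
variable {I Q}

theorem RegOn.add {f g : F} (hf : I.RegOn Q f) (hg : I.RegOn Q g) : I.RegOn Q (f + g) :=
  fun P hP => P.toValuationSubring.add_mem _ _ (hf P hP) (hg P hP)

theorem RegOn.mul {f g : F} (hf : I.RegOn Q f) (hg : I.RegOn Q g) : I.RegOn Q (f * g) :=
  fun P hP => P.toValuationSubring.mul_mem _ _ (hf P hP) (hg P hP)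

theorem RegOn.sub {f g : F} (hf : I.RegOn Q f) (hg : I.RegOn Q g) : I.RegOn Q (f - g) :=
  fun P hP => sub_mem (hf P hP) (hg P hP)

end

variable [FF1 K F]

theorem coe_ne_zero_of_ρ_ne_zero {u : I.V} (hρ : I.ρ u ≠ 0) : (u : F) ≠ 0 := by
  intro h0
  apply hρ
  have : u = 0 := Subtype.ext h0
  rw [this, map_zero]

/-- **Conservation, pointwise bound.**  For `u ∈ V` with `ρ u ≠ 0`, regular on the disc of `Q`,
the order of `u` at any point of the disc is at most `ord_Q (ρ u)`. -/
theorem ord_le_of_cons (u : I.V) (hρ : I.ρ u ≠ 0) (hreg : I.RegOn Q (u : F))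
    (P : Place K F) (hP : I.r P = Q) : P.ord (u : F) ≤ Q.ord (I.ρ u) := by
  have hu0 := I.coe_ne_zero_of_ρ_ne_zero hρ
  have hc := I.cons u hρ (divOf (u : F) hu0) (fun P => divOf_apply (u : F) hu0 P) Q
  rw [← hc, ← divOf_apply (u : F) hu0 P]
  refine apply_le_mapDomain I.r _ Q (fun P' hP' => ?_) P hP
  rw [divOf_apply]
  exact ord_nonneg_of_mem P' (hreg P' hP')

/-- **Conservation, two points.** -/
theorem ord_add_ord_le_of_cons (u : I.V) (hρ : I.ρ u ≠ 0)
    (hreg : I.RegOn Q (u : F)) (P P' : Place K F) (hne : P ≠ P') (hP : I.r P = Q)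
    (hP' : I.r P' = Q) : P.ord (u : F) + P'.ord (u : F) ≤ Q.ord (I.ρ u) := by
  have hu0 := I.coe_ne_zero_of_ρ_ne_zero hρ
  have hc := I.cons u hρ (divOf (u : F) hu0) (fun P => divOf_apply (u : F) hu0 P) Q
  rw [← hc, ← divOf_apply (u : F) hu0 P, ← divOf_apply (u : F) hu0 P']
  refine apply_add_apply_le_mapDomain I.r _ Q (fun P'' hP'' => ?_) P P' hne hP hP'
  rw [divOf_apply]
  exact ord_nonneg_of_mem P'' (hreg P'' hP'')

/-- **Conservation, existence of a zero.** -/
theorem exists_ord_pos_of_cons (u : I.V) (hρ : I.ρ u ≠ 0)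
    (hpos : 0 < Q.ord (I.ρ u)) : ∃ P, I.r P = Q ∧ 0 < P.ord (u : F) := by
  have hu0 := I.coe_ne_zero_of_ρ_ne_zero hρ
  have hc := I.cons u hρ (divOf (u : F) hu0) (fun P => divOf_apply (u : F) hu0 P) Q
  rw [← hc] at hpos
  obtain ⟨P, hP, h⟩ := exists_pos_of_mapDomain_pos I.r _ Q hpos
  rw [divOf_apply] at h
  exact ⟨P, hP, h⟩

/-- the constants of `A`, as elements of `V` -/
def const (a : A) : I.V := ⟨algebraMap K F (a : K), I.algebraMap_mem _ a.2⟩

@[simp] theorem coe_const (a : A) : ((I.const a : I.V) : F) = algebraMap K F (a : K) := rfl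

theorem ρ_const (a : A) : I.ρ (I.const a) = algebraMap k Fk (I.π a) :=
  I.ρ_algebraMap (a : K) a.2

theorem ρ_const_of_mem_nonunits (a : A) (ha : (a : K) ∈ A.nonunits) : I.ρ (I.const a) = 0 :=
  (I.ρ_eq_zero _).mpr (I.algebraMap_mem_nonunits _ ha)

/-- **Values on the disc are integral.**  A function of `V` regular on the disc of `Q` takes
values in `A` at the points of the disc. -/
theorem exists_hasVal_mem (f : I.V) (hreg : I.RegOn Q (f : F)) (P : Place K F)
    (hP : I.r P = Q) : ∃ b : A, HasVal P (f : F) (b : K) := by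
  obtain ⟨c, hc⟩ := exists_hasVal P (deg_eq_one P) (hreg P hP)
  by_cases hcA : c ∈ A
  · exact ⟨⟨c, hcA⟩, hc⟩
  exfalso
  have hc0 : c ≠ 0 := by
    rintro rfl
    exact hcA A.zero_mem
  have hinv : c⁻¹ ∈ A.nonunits := inv_mem_nonunits_of_not_mem A hcA
  have hinvA : c⁻¹ ∈ A := mem_of_mem_nonunits A hinv
  set u : I.V := I.const ⟨c⁻¹, hinvA⟩ * f - 1 with hu
  have hρu : I.ρ u = -1 := by
    rw [hu, map_sub, map_mul, map_one, I.ρ_const_of_mem_nonunits _ hinv, zero_mul, zero_sub]
  have hρne : I.ρ u ≠ 0 := by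
    rw [hρu]
    exact neg_ne_zero.mpr one_ne_zero
  have hcoe : (u : F) = algebraMap K F c⁻¹ * (f : F) - 1 := rfl
  have hregu : I.RegOn Q (u : F) := by
    rw [hcoe]
    refine ((I.regOn_algebraMap Q c⁻¹).mul hreg).sub ?_
    have := I.regOn_algebraMap Q (1 : K)
    rwa [map_one] at this
  have hle := I.ord_le_of_cons Q u hρne hregu P hP
  rw [hρu, ord_neg, Place.ord_one] at hle
  have hval : HasVal P (u : F) 0 := by
    have h1 := ((hasVal_algebraMap P c⁻¹).mul hc).sub (hasVal_one P)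
    rw [inv_mul_cancel₀ hc0, sub_self] at h1
    rw [hcoe]
    exact h1
  rcases (hasVal_zero_iff P _).mp hval with h0 | hpos
  · exact I.coe_ne_zero_of_ρ_ne_zero hρne h0
  · omega

/-- **Value compatibility.**  `(ρ f)(Q) = π (f(P))` for `P` in the disc of `Q`. -/
theorem hasVal_red (f : I.V) (hreg : I.RegOn Q (f : F)) (P : Place K F) (hP : I.r P = Q)
    (b : A) (hb : HasVal P (f : F) (b : K)) : HasVal Q (I.ρ f) (I.π b) := by
  set u : I.V := f - I.const b with hu
  have hρu : I.ρ u = I.ρ f - algebraMap k Fk (I.π b) := by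
    rw [hu, map_sub, I.ρ_const]
  unfold HasVal
  rw [← hρu]
  by_cases hρ0 : I.ρ u = 0
  · rw [hρ0]
    exact zero_mem_nonunits _
  have hcoe : (u : F) = (f : F) - algebraMap K F (b : K) := rfl
  have hregu : I.RegOn Q (u : F) := by
    rw [hcoe]
    exact hreg.sub (I.regOn_algebraMap Q _)
  have hle := I.ord_le_of_cons Q u hρ0 hregu P hP
  have hb' : (u : F) ∈ P.toValuationSubring.nonunits := hb
  rcases (mem_nonunits_iff_ord P _).mp hb' with h0 | hpos
  · exact absurd h0 (I.coe_ne_zero_of_ρ_ne_zero hρ0)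
  · exact (mem_nonunits_iff_ord Q _).mpr (Or.inr (lt_of_lt_of_le hpos hle))

end ConsInput

/-- A parameter at the place `Q` of the special fibre: a function of `V`, regular on the residue
disc of `Q`, whose reduction has a simple zero at `Q`. -/
structure DiscParam (I : ConsInput A F k Fk) (Q : Place k Fk) where
  /-- the parameter -/
  t : I.V
  t_reg : I.RegOn Q (t : F)
  ord_t : Q.ord (I.ρ t) = 1

namespace DiscParam

variable {I : ConsInput A F k Fk} {Q : Place k Fk} (T : DiscParam I Q) [FF1 K F]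

theorem ρ_t_ne_zero : I.ρ T.t ≠ 0 := by
  intro h0
  have := T.ord_t
  rw [h0, Place.ord_zero] at this
  exact zero_ne_one this

/-- the function `t - a` -/
def shift (a : A) : I.V := T.t - I.const a

@[simp] theorem coe_shift (a : A) : ((T.shift a : I.V) : F) = (T.t : F) - algebraMap K F (a : K) :=
  rfl

theorem ρ_shift (a : A) (ha : (a : K) ∈ A.nonunits) : I.ρ (T.shift a) = I.ρ T.t := by
  rw [shift, map_sub, I.ρ_const_of_mem_nonunits a ha, sub_zero]

theorem ρ_shift_ne_zero (a : A) (ha : (a : K) ∈ A.nonunits) : I.ρ (T.shift a) ≠ 0 := by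
  rw [T.ρ_shift a ha]
  exact T.ρ_t_ne_zero

theorem shift_ne_zero (a : A) (ha : (a : K) ∈ A.nonunits) : ((T.shift a : I.V) : F) ≠ 0 :=
  I.coe_ne_zero_of_ρ_ne_zero (T.ρ_shift_ne_zero a ha)

theorem regOn_shift (a : A) : I.RegOn Q ((T.shift a : I.V) : F) := by
  rw [coe_shift]
  exact T.t_reg.sub (I.regOn_algebraMap Q _)

theorem ord_shift_le_one (a : A) (ha : (a : K) ∈ A.nonunits) (P : Place K F) (hP : I.r P = Q) :
    P.ord ((T.shift a : I.V) : F) ≤ 1 := by
  have := I.ord_le_of_cons Q (T.shift a) (T.ρ_shift_ne_zero a ha) (T.regOn_shift a) P hP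
  rwa [T.ρ_shift a ha, T.ord_t] at this

theorem hasVal_iff_ord_shift (a : A) (ha : (a : K) ∈ A.nonunits) (P : Place K F) :
    HasVal P (T.t : F) (a : K) ↔ 0 < P.ord ((T.shift a : I.V) : F) := by
  unfold HasVal
  rw [← coe_shift, mem_nonunits_iff_ord]
  constructor
  · rintro (h | h)
    · exact absurd h (T.shift_ne_zero a ha)
    · exact h
  · exact Or.inr

/-- **The disc is parametrised by `𝔪_A`, existence.** -/
theorem exists_center (a : A) (ha : (a : K) ∈ A.nonunits) :
    ∃ P, I.r P = Q ∧ HasVal P (T.t : F) (a : K) := by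
  obtain ⟨P, hP, hpos⟩ := I.exists_ord_pos_of_cons Q (T.shift a) (T.ρ_shift_ne_zero a ha) (by
    rw [T.ρ_shift a ha, T.ord_t]
    exact one_pos)
  exact ⟨P, hP, (T.hasVal_iff_ord_shift a ha P).mpr hpos⟩

/-- **The disc is parametrised by `𝔪_A`, uniqueness.** -/
theorem center_unique (a : A) (ha : (a : K) ∈ A.nonunits) (P P' : Place K F) (hP : I.r P = Q)
    (hP' : I.r P' = Q) (h : HasVal P (T.t : F) (a : K)) (h' : HasVal P' (T.t : F) (a : K)) :
    P = P' := by
  by_contra hne
  have h1 := (T.hasVal_iff_ord_shift a ha P).mp h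
  have h2 := (T.hasVal_iff_ord_shift a ha P').mp h'
  have h3 := I.ord_add_ord_le_of_cons Q (T.shift a) (T.ρ_shift_ne_zero a ha) (T.regOn_shift a)
    P P' hne hP hP'
  rw [T.ρ_shift a ha, T.ord_t] at h3
  omega

/-- `t - a` does not vanish on the disc away from its centre. -/
theorem ord_shift_eq_zero (a : A) (ha : (a : K) ∈ A.nonunits) (P P' : Place K F)
    (hP : I.r P = Q) (hP' : I.r P' = Q) (h : HasVal P (T.t : F) (a : K)) (hne : P' ≠ P) :
    P'.ord ((T.shift a : I.V) : F) = 0 := by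
  have h1 := (T.hasVal_iff_ord_shift a ha P).mp h
  have h3 := I.ord_add_ord_le_of_cons Q (T.shift a) (T.ρ_shift_ne_zero a ha) (T.regOn_shift a)
    P' P hne hP' hP
  rw [T.ρ_shift a ha, T.ord_t] at h3
  have h4 := ord_nonneg_of_mem P' (T.regOn_shift a P' hP')
  omega

/-- **`t` maps the disc into `𝔪_A`.** -/
theorem mem_nonunits_of_hasVal (P : Place K F) (hP : I.r P = Q) (a : A)
    (h : HasVal P (T.t : F) (a : K)) : (a : K) ∈ A.nonunits := by
  have h1 := I.hasVal_red Q T.t T.t_reg P hP a h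
  have h2 : HasVal Q (I.ρ T.t) 0 := by
    rw [hasVal_zero_iff]
    right
    rw [T.ord_t]
    exact one_pos
  exact I.π_eq_zero a (h1.unique h2)

end DiscParam

end Fermat.Agent.A3.H75
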