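import Fermat.Agent.Lib.RR.Basic

/-!
# A3 / LOCAL / DISC (helper75): values of functions at places, and sums of orders over a fibre

Language: the Prelude's `AlgebraicCurve.Place`, Lib/RR's `FF1`.

* `HasVal P f b` : `f` is regular at the place `P` with value `b ∈ K` (the same predicate as
  `S37.Core.HasValue`, restated here to keep the import closure small);
* calculus: `HasVal.unique`, `.add`, `.mul`, `.sub`, `.neg`, `hasVal_algebraMap`,
  `exists_hasVal` (places of degree one);
* `mapDomain_apply_eq_sum` : `(r_* D)(Q) = ∑_{P ∈ supp D, r P = Q} D(P)`;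
* `ord_le_mapDomain` : a nonnegative term is bounded by the sum.
-/

set_option autoImplicit false

noncomputable section

namespace Fermat.Agent.A3.H75

open AlgebraicCurve Fermat.Agent.Lib.RR

section Nonunits

variable {F : Type*} [Field F] (V : ValuationSubring F)

theorem nonunits_add {x y : F} (hx : x ∈ V.nonunits) (hy : y ∈ V.nonunits) :
    x + y ∈ V.nonunits := by
  rw [ValuationSubring.mem_nonunits_iff] at hx hy ⊢
  exact V.valuation.map_add_lt hx hy

theorem nonunits_neg {x : F} (hx : x ∈ V.nonunits) : -x ∈ V.nonunits := by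
  rw [ValuationSubring.mem_nonunits_iff] at hx ⊢
  rwa [Valuation.map_neg]

theorem nonunits_sub {x y : F} (hx : x ∈ V.nonunits) (hy : y ∈ V.nonunits) :
    x - y ∈ V.nonunits := by
  rw [sub_eq_add_neg]
  exact nonunits_add V hx (nonunits_neg V hy)

theorem nonunits_mul {m x : F} (hm : m ∈ V.nonunits) (hx : x ∈ V) : m * x ∈ V.nonunits := by
  rw [ValuationSubring.mem_nonunits_iff] at hm ⊢
  rw [map_mul]
  have hx' := (V.valuation_le_one_iff x).mpr hx
  exact mul_lt_one_of_lt_of_le hm hx'

theorem nonunits_mul' {m x : F} (hx : x ∈ V) (hm : m ∈ V.nonunits) : x * m ∈ V.nonunits := by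
  rw [mul_comm]
  exact nonunits_mul V hm hx

theorem mem_of_mem_nonunits {x : F} (hx : x ∈ V.nonunits) : x ∈ V := by
  rw [ValuationSubring.mem_nonunits_iff] at hx
  exact (V.valuation_le_one_iff x).mp hx.le

theorem zero_mem_nonunits : (0 : F) ∈ V.nonunits := by
  rw [ValuationSubring.mem_nonunits_iff, map_zero]
  exact zero_lt_one

theorem one_not_mem_nonunits : (1 : F) ∉ V.nonunits := by
  rw [ValuationSubring.mem_nonunits_iff, map_one]
  exact lt_irrefl _

theorem inv_mem_of_not_mem_nonunits {x : F} (hx : x ∉ V.nonunits) : x ≠ 0 ∧ x⁻¹ ∈ V := by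
  rw [ValuationSubring.mem_nonunits_iff_or] at hx
  push Not at hx
  exact hx

theorem not_mem_nonunits_of_inv_mem {x : F} (hx0 : x ≠ 0) (hx : x⁻¹ ∈ V) : x ∉ V.nonunits := by
  rw [ValuationSubring.mem_nonunits_iff_or]
  push Not
  exact ⟨hx0, hx⟩

/-- an element outside the valuation ring has its inverse in the maximal ideal -/
theorem inv_mem_nonunits_of_not_mem {x : F} (hx : x ∉ V) : x⁻¹ ∈ V.nonunits := by
  rw [ValuationSubring.mem_nonunits_iff_or, inv_inv]
  exact Or.inr hx

end Nonunits

variable {K : Type*} [Field K] {F : Type*} [Field F] [Algebra K F]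

/-- nonzero constants are units at every place -/
theorem algebraMap_not_mem_nonunits (P : Place K F) {c : K} (hc : c ≠ 0) :
    algebraMap K F c ∉ P.toValuationSubring.nonunits := by
  apply not_mem_nonunits_of_inv_mem
  · exact (map_ne_zero _).mpr hc
  · rw [← map_inv₀]
    exact P.algebraMap_mem' _

theorem mem_nonunits_iff_ord (P : Place K F) (x : F) :
    x ∈ P.toValuationSubring.nonunits ↔ x = 0 ∨ 0 < P.ord x := by
  constructor
  · intro hx
    have hmem : x ∈ P.toValuationSubring := mem_of_mem_nonunits _ hx
    have h1 : (⟨x, hmem⟩ : P.toValuationSubring) ∈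
        IsLocalRing.maximalIdeal P.toValuationSubring := by
      rw [IsLocalRing.mem_maximalIdeal]
      exact (ValuationSubring.coe_mem_nonunits_iff (A := P.toValuationSubring)).mp hx
    exact (mem_maximalIdeal_iff P _).mp h1
  · rintro (rfl | h)
    · exact zero_mem_nonunits _
    · have hmem : x ∈ P.toValuationSubring := mem_of_ord_nonneg P h.le
      have h1 : (⟨x, hmem⟩ : P.toValuationSubring) ∈
          IsLocalRing.maximalIdeal P.toValuationSubring :=
        (mem_maximalIdeal_iff P _).mpr (Or.inr h)
      rw [IsLocalRing.mem_maximalIdeal] at h1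
      exact (ValuationSubring.coe_mem_nonunits_iff (A := P.toValuationSubring)).mpr h1

/-- `f` is regular at the place `P` with value `b`. -/
def HasVal (P : Place K F) (f : F) (b : K) : Prop :=
  f - algebraMap K F b ∈ P.toValuationSubring.nonunits

namespace HasVal

variable {P : Place K F} {f g : F} {b c : K}

theorem mem (h : HasVal P f b) : f ∈ P.toValuationSubring := by
  have h1 := mem_of_mem_nonunits _ h
  have h2 := P.toValuationSubring.add_mem _ _ h1 (P.algebraMap_mem' b)
  simpa using h2

theorem unique (h : HasVal P f b) (h' : HasVal P f c) : b = c := by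
  by_contra hne
  have h1 : algebraMap K F (c - b) ∈ P.toValuationSubring.nonunits := by
    have := nonunits_sub _ h h'
    rw [map_sub]
    have e : f - algebraMap K F b - (f - algebraMap K F c) =
        algebraMap K F c - algebraMap K F b := by ring
    rwa [e] at this
  exact algebraMap_not_mem_nonunits P (sub_ne_zero.mpr (Ne.symm hne)) h1

theorem add (h : HasVal P f b) (h' : HasVal P g c) : HasVal P (f + g) (b + c) := by
  unfold HasVal at h h' ⊢
  have := nonunits_add _ h h'
  rw [map_add]
  have e : f + g - (algebraMap K F b + algebraMap K F c) =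
      f - algebraMap K F b + (g - algebraMap K F c) := by ring
  rwa [e]

theorem neg (h : HasVal P f b) : HasVal P (-f) (-b) := by
  unfold HasVal at h ⊢
  have := nonunits_neg _ h
  rw [map_neg]
  have e : -f - -algebraMap K F b = -(f - algebraMap K F b) := by ring
  rwa [e]

theorem sub (h : HasVal P f b) (h' : HasVal P g c) : HasVal P (f - g) (b - c) := by
  rw [sub_eq_add_neg, sub_eq_add_neg]
  exact h.add h'.neg

theorem mul (h : HasVal P f b) (h' : HasVal P g c) : HasVal P (f * g) (b * c) := by
  have hg := h'.mem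
  unfold HasVal at h h' ⊢
  rw [map_mul]
  have e : f * g - algebraMap K F b * algebraMap K F c =
      (f - algebraMap K F b) * g + algebraMap K F b * (g - algebraMap K F c) := by ring
  rw [e]
  exact nonunits_add _ (nonunits_mul _ h hg) (nonunits_mul' _ (P.algebraMap_mem' b) h')

end HasVal

theorem hasVal_algebraMap (P : Place K F) (b : K) : HasVal P (algebraMap K F b) b := by
  unfold HasVal
  rw [sub_self]
  exact zero_mem_nonunits _

theorem hasVal_zero (P : Place K F) : HasVal P (0 : F) 0 := by
  have := hasVal_algebraMap P (0 : K)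
  rwa [map_zero] at this

theorem hasVal_one (P : Place K F) : HasVal P (1 : F) 1 := by
  have := hasVal_algebraMap P (1 : K)
  rwa [map_one] at this

/-- at a place of degree one every regular function has a value -/
theorem exists_hasVal (P : Place K F) (hP : P.deg = 1) {f : F} (hf : f ∈ P.toValuationSubring) :
    ∃ b : K, HasVal P f b := by
  obtain ⟨c, hc⟩ := exists_const_sub P hP (ord_nonneg_of_mem P hf)
  exact ⟨c, (mem_nonunits_iff_ord P _).mpr hc⟩

theorem hasVal_zero_iff (P : Place K F) (f : F) : HasVal P f 0 ↔ f = 0 ∨ 0 < P.ord f := by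
  unfold HasVal
  rw [map_zero, sub_zero]
  exact mem_nonunits_iff_ord P f

section Sum

variable {k : Type*} [Field k] {Fk : Type*} [Field Fk] [Algebra k Fk]

open Classical in
theorem mapDomain_apply_eq_sum (r : Place K F → Place k Fk) (D : Divisor K F)
    (Q : Place k Fk) :
    Finsupp.mapDomain r D Q = ∑ P ∈ D.support.filter (fun P => r P = Q), D P := by
  rw [Finsupp.mapDomain, Finsupp.sum, Finsupp.finsetSum_apply, Finset.sum_filter]
  refine Finset.sum_congr rfl fun P _ => ?_
  rw [Finsupp.single_apply]

/-- If `D ≥ 0` on the fibre of `r` over `Q`, every coefficient on the fibre is bounded by the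
coefficient of `r_* D` at `Q`. -/
theorem apply_le_mapDomain (r : Place K F → Place k Fk) (D : Divisor K F) (Q : Place k Fk)
    (hD : ∀ P, r P = Q → 0 ≤ D P) (P₀ : Place K F) (hP₀ : r P₀ = Q) :
    D P₀ ≤ Finsupp.mapDomain r D Q := by
  classical
  rw [mapDomain_apply_eq_sum]
  by_cases h : P₀ ∈ D.support
  · have hmem : P₀ ∈ D.support.filter (fun P => r P = Q) := Finset.mem_filter.mpr ⟨h, hP₀⟩
    exact Finset.single_le_sum (f := fun P => D P)
      (fun P hP => hD P (Finset.mem_filter.mp hP).2) hmem
  · rw [Finsupp.notMem_support_iff.mp h]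
    exact Finset.sum_nonneg fun P hP => hD P (Finset.mem_filter.mp hP).2

/-- Two distinct points of the fibre: the sum of their coefficients is bounded by the
coefficient of `r_* D` at `Q`. -/
theorem apply_add_apply_le_mapDomain (r : Place K F → Place k Fk) (D : Divisor K F)
    (Q : Place k Fk) (hD : ∀ P, r P = Q → 0 ≤ D P) (P₀ P₁ : Place K F) (hne : P₀ ≠ P₁)
    (hP₀ : r P₀ = Q) (hP₁ : r P₁ = Q) :
    D P₀ + D P₁ ≤ Finsupp.mapDomain r D Q := by
  classical
  rw [mapDomain_apply_eq_sum]
  set s := D.support.filter (fun P => r P = Q) with hs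
  have hnn : ∀ P ∈ s, 0 ≤ D P := fun P hP => hD P (Finset.mem_filter.mp hP).2
  have key : ∀ t : Finset (Place K F), t ⊆ {P₀, P₁} → (∀ P ∈ t, r P = Q) →
      ∑ P ∈ t, D P ≤ ∑ P ∈ s, D P := by
    intro t _ htQ
    have h1 : ∑ P ∈ t, D P = ∑ P ∈ t.filter (fun P => P ∈ D.support), D P := by
      rw [Finset.sum_filter]
      refine Finset.sum_congr rfl fun P _ => ?_
      split_ifs with h
      · rfl
      · exact Finsupp.notMem_support_iff.mp h
    rw [h1]
    refine Finset.sum_le_sum_of_subset_of_nonneg ?_ fun P hP _ => hnn P hP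
    intro P hP
    rw [Finset.mem_filter] at hP
    exact Finset.mem_filter.mpr ⟨hP.2, htQ P hP.1⟩
  have h2 := key {P₀, P₁} (Finset.Subset.refl _) (by
    intro P hP
    rw [Finset.mem_insert, Finset.mem_singleton] at hP
    rcases hP with rfl | rfl
    · exact hP₀
    · exact hP₁)
  rwa [Finset.sum_pair hne] at h2

/-- If the coefficient of `r_* D` at `Q` is positive, some point of the fibre has a positive
coefficient. -/
theorem exists_pos_of_mapDomain_pos (r : Place K F → Place k Fk) (D : Divisor K F)
    (Q : Place k Fk) (h : 0 < Finsupp.mapDomain r D Q) : ∃ P, r P = Q ∧ 0 < D P := by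
  classical
  rw [mapDomain_apply_eq_sum] at h
  obtain ⟨P, hP, hpos⟩ := Finset.exists_lt_of_sum_lt (f := fun _ => (0 : ℤ)) (g := fun P => D P)
    (by simpa using h)
  exact ⟨P, (Finset.mem_filter.mp hP).2, hpos⟩

end Sum

end Fermat.Agent.A3.H75
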