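import Fermat.Agent.A3.H75.DiscDataOfParam
import Fermat.Agent.S19.H195.GoodRedD12
import Fermat.Agent.Lib.RR.H439.Pencil

/-!
# A3 / LOCAL / DISC (helper75): inertia-invariant parameters; the leaf `DiscStatement`

For a `GoodRed 𝓡` (frozen interface, `Fermat/Agent/A3/H799/GoodRed.lean`):

* `exists_lift_inv` : for an inertia-invariant divisor `D` of degree `> 2g - 2`, every element of
  `L(r_* D)` is the reduction of an inertia-invariant function of `L(D) ∩ O`;
* `exists_param_of_place` : if `P₁` is an inertia-invariant place with `r P₁ ≠ Q` there is an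
  inertia-invariant parameter at `Q` (a function of `O`, regular on the disc of `Q`, whose
  reduction is a uniformiser at `Q`), with poles only at `P₁`;
* `exists_place_ne` : a function field with `FF1` has at least two places;
* `exists_inv_place` : over every place `Q' ≠ r P∞` there is an inertia-invariant place;
* `exists_param` (PAR) : every place of the special fibre has an inertia-invariant parameter;
* `discStatement : DiscStatement K F k Fk` : the frozen leaf DISC of
  `Fermat/Agent/A3/H799/LocalSpec.lean`.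
-/

set_option autoImplicit false
set_option linter.unusedSectionVars false

noncomputable section

namespace Fermat.Agent.A3.H75

open AlgebraicCurve Fermat.Agent.Lib.RR Fermat.Agent.A3.H799 Fermat.Agent.S19.H195

variable {K F k Fk : Type*} [Field K] [Field F] [Algebra K F] [Field k] [Field Fk] [Algebra k Fk]

/-- the constants of `V`, as elements of `O` -/
def constO (𝓡 : GoodRed K F k Fk) (a : 𝓡.V) : 𝓡.O :=
  ⟨algebraMap K F (a : K), (𝓡.algebraMap_mem _).mpr a.2⟩

@[simp] theorem coe_constO (𝓡 : GoodRed K F k Fk) (a : 𝓡.V) :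
    ((constO 𝓡 a : 𝓡.O) : F) = algebraMap K F (a : K) := rfl

theorem red_constO (𝓡 : GoodRed K F k Fk) (a : 𝓡.V) :
    𝓡.red (constO 𝓡 a) = algebraMap k Fk (𝓡.res a) :=
  𝓡.red_algebraMap a _

/-- **Inertia-invariant integral Riemann–Roch.** -/
theorem exists_lift_inv (𝓡 : GoodRed K F k Fk) (D : Divisor K F)
    (hD : 2 * (genusFF k Fk : ℤ) - 2 < Divisor.degree D) (hinv : ∀ g ∈ 𝓡.I, g • D = D)
    (gb : Fk) (hgb : gb ∈ riemannRochSpace (Finsupp.mapDomain 𝓡.r D)) :
    ∃ f : 𝓡.O, (f : F) ∈ riemannRochSpace D ∧ 𝓡.red f = gb ∧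
      ∀ g ∈ 𝓡.I, g • (f : F) = (f : F) := by
  have := 𝓡.ff1
  have := 𝓡.ff1k
  obtain ⟨n, b, hli, hmem, hspan, hbinv⟩ := 𝓡.orthonormal D
  have hbI := hbinv hinv
  -- `b` is a `K`-basis of `L(D)`, hence `n = ℓ(D)`
  have hliK : LinearIndependent K (fun i => ((b i : 𝓡.O) : F)) :=
    (ofGoodRed 𝓡).linearIndependent_of_red (fun i => ((b i : 𝓡.O) : F)) (fun i => (b i).2) hli
  have hn : ell D = n := by
    unfold ell
    rw [← hspan, finrank_span_eq_card hliK, Fintype.card_fin]
  have hell := (GoodRedLemmas.ell_eq 𝓡 D hD).1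
  -- the reductions form a basis of `L(r_* D)`
  set W := riemannRochSpace (Finsupp.mapDomain 𝓡.r D) with hW
  let b' : Fin n → W := fun i => ⟨𝓡.red (b i), GoodRedLemmas.red_mem 𝓡 D (b i) (hmem i)⟩
  have hli' : LinearIndependent k b' := by
    apply LinearIndependent.of_comp W.subtype
    exact hli
  have hcard : Fintype.card (Fin n) = Module.finrank k W := by
    rw [Fintype.card_fin, ← hn, hell]
    rfl
  have htop : Submodule.span k (Set.range b') = ⊤ :=
    hli'.span_eq_top_of_card_eq_finrank' hcard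
  have hmemtop : (⟨gb, hgb⟩ : W) ∈ Submodule.span k (Set.range b') := by
    rw [htop]
    exact Submodule.mem_top
  obtain ⟨c, hc⟩ := (Submodule.mem_span_range_iff_exists_fun k).mp hmemtop
  have hc' : ∑ i, c i • 𝓡.red (b i) = gb := by
    have := congrArg (W.subtype) hc
    simpa [b'] using this
  -- inertia-invariant lifts of the coefficients
  choose a ha hainv using fun i => 𝓡.I_lift_const (c i)
  refine ⟨∑ i, constO 𝓡 (a i) * b i, ?_, ?_, ?_⟩
  · have h1 : ((∑ i, constO 𝓡 (a i) * b i : 𝓡.O) : F) =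
        ∑ i, ((a i : 𝓡.V) : K) • ((b i : 𝓡.O) : F) := by
      rw [← 𝓡.O.subtype_apply, map_sum]
      refine Finset.sum_congr rfl fun i _ => ?_
      rw [Algebra.smul_def]
      rfl
    rw [h1]
    exact Submodule.sum_mem _ fun i _ => Submodule.smul_mem _ _ (hmem i)
  · rw [map_sum, ← hc']
    refine Finset.sum_congr rfl fun i _ => ?_
    rw [map_mul, red_constO, ha i, Algebra.smul_def]
  · intro g hg
    have h1 : ((∑ i, constO 𝓡 (a i) * b i : 𝓡.O) : F) =
        ∑ i, algebraMap K F ((a i : 𝓡.V) : K) * ((b i : 𝓡.O) : F) := by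
      rw [← 𝓡.O.subtype_apply, map_sum]
      rfl
    rw [h1, Finset.smul_sum]
    refine Finset.sum_congr rfl fun i _ => ?_
    rw [smul_mul', SemilinearAut.smul_algebraMap, hainv i g hg, hbI i g hg]

/-- **A parameter at `Q` with poles only at an inertia-invariant place `P₁` off the disc.** -/
theorem exists_param_of_place (𝓡 : GoodRed K F k Fk) (Q : Place k Fk) (P₁ : Place K F)
    (hP₁ : ∀ g ∈ 𝓡.I, g • P₁ = P₁) (hne : 𝓡.r P₁ ≠ Q) :
    ∃ t : 𝓡.O, (∀ P : Place K F, 𝓡.r P = Q → (t : F) ∈ P.toValuationSubring) ∧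
      Q.ord (𝓡.red t) = 1 ∧ ∀ g ∈ 𝓡.I, g • (t : F) = (t : F) := by
  classical
  have := 𝓡.ff1
  have := 𝓡.ff1k
  set m : ℤ := 2 * (genusFF k Fk : ℤ) + 2 with hm
  set D : Divisor K F := Finsupp.single P₁ m with hD
  have hdegD : Divisor.degree D = m := by
    rw [hD, Divisor.degree_single, deg_eq_one P₁]
    simp
  have hrD : Finsupp.mapDomain 𝓡.r D = Finsupp.single (𝓡.r P₁) m := by
    rw [hD, Finsupp.mapDomain_single]
  set E : Divisor k Fk := Finsupp.single (𝓡.r P₁) m - prim Q with hE
  have hdegE : Divisor.degree E = m - 1 := by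
    rw [hE, map_sub, Divisor.degree_single, deg_eq_one (𝓡.r P₁), degree_prim']
    simp
  obtain ⟨tb, htb, htb0, hord⟩ := H439.exists_mem_L_ord_eq (E := E)
    (by rw [hdegE, hm]; omega) Q
  have hEQ : E Q = -1 := by
    rw [hE, Finsupp.sub_apply, Finsupp.single_apply, if_neg hne, prim_apply_self]
    ring
  rw [hEQ, neg_neg] at hord
  have htb' : tb ∈ riemannRochSpace (Finsupp.mapDomain 𝓡.r D) := by
    rw [hrD]
    exact L_mono (H439.sub_prim_le _ Q) htb
  have hDinv : ∀ g ∈ 𝓡.I, g • D = D := by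
    intro g hg
    rw [hD, SemilinearAut.smul_single, hP₁ g hg]
  obtain ⟨t, htD, hred, htinv⟩ := exists_lift_inv 𝓡 D (by rw [hdegD, hm]; omega) hDinv tb htb'
  refine ⟨t, fun P hP => ?_, by rw [hred]; exact hord, htinv⟩
  have hPne : P ≠ P₁ := by
    rintro rfl
    exact hne hP
  rcases (mem_L_iff.mp htD) P with h0 | h
  · rw [h0]
    exact P.toValuationSubring.zero_mem
  · apply mem_of_ord_nonneg
    rw [hD, Finsupp.single_apply, if_neg (Ne.symm hPne), neg_zero] at h
    exact h

/-- A function field of one variable (`FF1`) has at least two places. -/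
theorem exists_place_ne {K' F' : Type*} [Field K'] [Field F'] [Algebra K' F'] [FF1 K' F']
    (Q₀ : Place K' F') : ∃ Q : Place K' F', Q ≠ Q₀ := by
  classical
  by_contra hcon
  push Not at hcon
  set n : ℤ := 2 * (genusFF K' F' : ℤ) + 1 with hn
  set D : Divisor K' F' := Finsupp.single Q₀ n with hD
  have hdegD : Divisor.degree D = n := by
    rw [hD, Divisor.degree_single, deg_eq_one Q₀]
    simp
  have hell : (ell D : ℤ) = Divisor.degree D + 1 - (genusFF K' F' : ℤ) :=
    ell_eq_of_degree_gt (by rw [hdegD, hn]; omega)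
  have hle : riemannRochSpace D ≤ riemannRochSpace (0 : Divisor K' F') := by
    intro f hf
    rw [mem_L_iff]
    intro v
    by_cases hf0 : f = 0
    · exact Or.inl hf0
    right
    have hv : v = Q₀ := hcon v
    have hdeg := degree_divOf (K := K') f hf0
    have hdiv : divOf (K := K') f hf0 = Finsupp.single Q₀ (Q₀.ord f) := by
      ext w
      rw [divOf_apply, hcon w, Finsupp.single_apply, if_pos rfl]
    rw [hdiv, Divisor.degree_single, deg_eq_one Q₀] at hdeg
    have h0 : Q₀.ord f = 0 := by simpa using hdeg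
    rw [hv, h0]
    simp
  have h1 := Submodule.finrank_mono hle
  have h2 : ell (0 : Divisor K' F') = 1 := ell_zero
  unfold ell at h2 hell
  rw [hdegD, hn] at hell
  omega

/-- the zero of the maximal ideal -/
def zeroMax (𝓡 : GoodRed K F k Fk) : IsLocalRing.maximalIdeal 𝓡.V := 0

/-- **An inertia-invariant place in the disc of `Q'`**, from an inertia-invariant parameter. -/
theorem exists_inv_place_of_param (𝓡 : GoodRed K F k Fk) (Q' : Place k Fk) (t : 𝓡.O)
    (hreg : ∀ P : Place K F, 𝓡.r P = Q' → (t : F) ∈ P.toValuationSubring)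
    (hord : Q'.ord (𝓡.red t) = 1) (hinv : ∀ g ∈ 𝓡.I, g • (t : F) = (t : F)) :
    ∃ P' : Place K F, 𝓡.r P' = Q' ∧ ∀ g ∈ 𝓡.I, g • P' = P' := by
  have := 𝓡.ff1
  let T : DiscParam (toConsInput 𝓡) Q' := ⟨t, hreg, hord⟩
  refine ⟨T.center 0, T.r_center 0, fun g hg => ?_⟩
  symm
  apply T.center_eq 0 (g • T.center 0)
  · show 𝓡.r (g • T.center 0) = Q'
    rw [𝓡.I_place g hg]
    exact T.r_center 0
  · have h0 := T.hasVal_center 0
    have hval : HasVal (T.center 0) (t : F) 0 := by simpa using h0
    have hval' : HasVal (g • T.center 0) (t : F) 0 := by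
      rw [hasVal_zero_iff] at hval ⊢
      rcases hval with h | h
      · exact Or.inl h
      · right
        have := SemilinearAut.ord_smul g (T.center 0) (t : F)
        rw [hinv g hg] at this
        rw [this]
        exact h
    simpa using hval'

/-- **PAR.**  Every place of the special fibre has an inertia-invariant parameter. -/
theorem exists_param (𝓡 : GoodRed K F k Fk) (Q : Place k Fk) :
    ∃ t : 𝓡.O, (∀ P : Place K F, 𝓡.r P = Q → (t : F) ∈ P.toValuationSubring) ∧
      Q.ord (𝓡.red t) = 1 ∧ ∀ g ∈ 𝓡.I, g • (t : F) = (t : F) := by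
  have := 𝓡.ff1
  have := 𝓡.ff1k
  obtain ⟨Pinf, hPinf⟩ := 𝓡.I_fixed_place
  by_cases hQ : 𝓡.r Pinf = Q
  · obtain ⟨Q', hQ'⟩ := exists_place_ne Q
    obtain ⟨t', hreg', hord', hinv'⟩ := exists_param_of_place 𝓡 Q' Pinf hPinf (by
      rw [hQ]
      exact Ne.symm hQ')
    obtain ⟨P', hP', hP'inv⟩ := exists_inv_place_of_param 𝓡 Q' t' hreg' hord' hinv'
    exact exists_param_of_place 𝓡 Q P' hP'inv (by rw [hP']; exact hQ')
  · exact exists_param_of_place 𝓡 Q Pinf hPinf hQ

variable (K F k Fk)

/-- **The frozen leaf DISC** of `Fermat/Agent/A3/H799/LocalSpec.lean`. -/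
theorem discStatement : DiscStatement K F k Fk :=
  disc_of_param fun 𝓡 Q => exists_param 𝓡 Q

end Fermat.Agent.A3.H75
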